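import Mathlib
import Fermat.Agent.X0.ValPt
import Fermat.Agent.X0.ValInfPsi

/-!
# PROGRAMME III, port leaf X1-AN-6 (helper6): generic analytic realisations and point valuations

Main's `X0` stack is generic in its abstract layers (`cosetHom`, `ordAtPt`, `ordAtInf`, the
abstract counting lemma); only the glue is specific to `Γ₀(N)`, `Rb N`, `Psi N` (and a second
textual copy over `ℂ` lives in `Jac/DictC`).  This file ports the glue of `X0/ValPt.lean` once,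
generic in

* the constant field `K` with an embedding `ι : K →+* ℂ` (`K = ℚ̄`, `ι = iotaC`; or `K = ℂ`),
* the group `Γ ≤ SL(2,ℤ)` with `-1 ∈ Γ` and `Γ(W) ≤ Γ`,
* the function field `F/K` with a realisation `θ : R →+* (ℍ → ℂ)` of a `K`-subalgebra `R`,
  `Frac R = F`.

`ModReal K ι Γ W F` is the input structure; `thetaC D c` are the conjugates, `wPt D z0 c` the
valuations at interior points with the hypotheses `w_mul, w_add, w_alg, w_x, w_g, w_dvd, w_int` of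
the abstract counting lemma.
-/

set_option autoImplicit false

namespace Fermat.Agent.DS.X1.Places

open Fermat.Agent.X0
open UpperHalfPlane Filter Topology IntermediateField MulAction Function
open scoped Manifold MatrixGroups

/-- **Analytic realisation data** for a function field `F/K` (`K = ℚ̄` or `ℂ`, `ι : K →+* ℂ`):
a `K`-subalgebra `R` with `Frac R = F`, realised injectively by holomorphic `Γ`-invariant functions
on `ℍ`, meromorphic at all cusps, containing an element realised by `j`.  `Γ` contains `-1` and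
`Γ(W)`. -/
structure ModReal (K : Type*) [Field K] (ι : K →+* ℂ) (Γ : Subgroup SL(2, ℤ)) (W : ℕ)
    (F : Type*) [Field F] [Algebra K F] where
  /-- the ring of realised functions -/
  R : Subalgebra K F
  isFrac : IsFractionRing R F
  /-- the realisation -/
  θ : R →+* (ℍ → ℂ)
  θ_inj : Function.Injective θ
  θ_mdiff : ∀ r, MDifferentiable 𝓘(ℂ) 𝓘(ℂ) (θ r)
  θ_inv : ∀ γ ∈ Γ, ∀ (r : R) (τ : ℍ), θ r (γ • τ) = θ r τ
  θ_const : ∀ k : K, θ (algebraMap K R k) = fun _ => ι k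
  /-- the element realised by `j` -/
  jR : R
  θ_jR : θ jR = jFun
  θ_mero : ∀ r, IsMeroAtCusps (θ r)
  neg_mem : (-1 : SL(2, ℤ)) ∈ Γ
  gamma_le : CongruenceSubgroup.Gamma W ≤ Γ

variable {K : Type*} [Field K] {ι : K →+* ℂ} {Γ : Subgroup SL(2, ℤ)} {W : ℕ}
  {F : Type*} [Field F] [Algebra K F]

namespace ModReal

/-- the `j`-function of the realisation, as an element of `F` -/
def j (D : ModReal K ι Γ W F) : F := (D.jR : F)

instance instIsFrac (D : ModReal K ι Γ W F) : IsFractionRing D.R F := D.isFrac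

theorem algebraMap_jR (D : ModReal K ι Γ W F) : algebraMap D.R F D.jR = D.j := rfl

end ModReal

variable (D : ModReal K ι Γ W F)

/-! ## The conjugates of `θ` -/

/-- The conjugate of `θ` attached to a left coset of `Γ`. -/
noncomputable def thetaC (c : SL(2, ℤ) ⧸ Γ) : D.R →+* (ℍ → ℂ) := cosetHom Γ D.θ c

theorem thetaC_mk (g : SL(2, ℤ)) : thetaC D (g : SL(2, ℤ) ⧸ Γ) = conjHom g D.θ :=
  cosetHom_mk D.θ_inv g

theorem thetaC_smul (g : SL(2, ℤ)) (c : SL(2, ℤ) ⧸ Γ) :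
    thetaC D (g • c) = conjHom g (thetaC D c) :=
  cosetHom_smul D.θ_inv g c

theorem thetaC_injective (c : SL(2, ℤ) ⧸ Γ) : Function.Injective (thetaC D c) :=
  cosetHom_injective _ D.θ_inj c

theorem thetaC_mdiff (c : SL(2, ℤ) ⧸ Γ) (r : D.R) : MDifferentiable 𝓘(ℂ) 𝓘(ℂ) (thetaC D c r) :=
  cosetHom_mdiff _ D.θ_mdiff c r

theorem thetaC_apply (c : SL(2, ℤ) ⧸ Γ) (r : D.R) (τ : ℍ) :
    thetaC D c r τ = D.θ r ((Quotient.out c : SL(2, ℤ))⁻¹ • τ) := rfl

/-- Constants are fixed by all conjugations. -/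
theorem thetaC_algebraMap (c : SL(2, ℤ) ⧸ Γ) (k : K) :
    thetaC D c (algebraMap K D.R k) = fun _ => ι k := by
  funext τ
  rw [thetaC_apply, D.θ_const]

/-- `j` is fixed by all conjugations. -/
theorem thetaC_jR (c : SL(2, ℤ) ⧸ Γ) : thetaC D c D.jR = jFun := by
  funext τ
  rw [thetaC_apply, D.θ_jR, jFun_smul]

/-! ## The valuations at interior points -/

/-- The valuation of `F` given by the order of vanishing at `z0` of the conjugate attached to the
coset `c`. -/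
noncomputable def wPt (z0 : ℍ) (c : SL(2, ℤ) ⧸ Γ) (f : F) : ℤ :=
  ordAtPt (R := D.R) (thetaC D c) z0 f

theorem wPt_mul (z0 : ℍ) (c : SL(2, ℤ) ⧸ Γ) (f h : F) (hf : f ≠ 0) (hh : h ≠ 0) :
    wPt D z0 c (f * h) = wPt D z0 c f + wPt D z0 c h :=
  ordAtPt_mul (thetaC_injective D c) (thetaC_mdiff D c) z0 hf hh

theorem wPt_add (z0 : ℍ) (c : SL(2, ℤ) ⧸ Γ) (f h : F) (hf : f ≠ 0) (hh : h ≠ 0)
    (hfh : f + h ≠ 0) : min (wPt D z0 c f) (wPt D z0 c h) ≤ wPt D z0 c (f + h) :=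
  ordAtPt_add (thetaC_injective D c) (thetaC_mdiff D c) z0 hf hh hfh

theorem wPt_alg (z0 : ℍ) (c : SL(2, ℤ) ⧸ Γ) (k : K) (hk : k ≠ 0) :
    wPt D z0 c (algebraMap K F k) = 0 := by
  have h1 : algebraMap K F k = algebraMap D.R F (algebraMap K D.R k) :=
    IsScalarTower.algebraMap_apply K D.R F k
  rw [h1]
  exact ordAtPt_algebraMap_of_const (thetaC_injective D c) (thetaC_mdiff D c) z0
    ((map_ne_zero ι).mpr hk) (thetaC_algebraMap D c k)

/-- `w_g`: invariance under an element fixing `z0`. -/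
theorem wPt_smul {z0 : ℍ} {g : SL(2, ℤ)} (hz : g • z0 = z0) (c : SL(2, ℤ) ⧸ Γ) (f : F) :
    wPt D z0 (g • c) f = wPt D z0 c f := by
  unfold wPt thetaC
  rw [ordAtPt_cosetHom_smul D.θ_inv hz c]

/-- the value of `wPt` on `j - a` where `ι a = j(z0)`. -/
theorem wPt_j_sub (z0 : ℍ) (c : SL(2, ℤ) ⧸ Γ) (a : K) (ha : ι a = jFun z0) :
    wPt D z0 c (D.j - algebraMap K F a) = (ordH (fun w => jFun w - jFun z0) z0 : ℤ) := by
  have h1 : D.j - algebraMap K F a = algebraMap D.R F (D.jR - algebraMap K D.R a) := by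
    rw [map_sub, D.algebraMap_jR, ← IsScalarTower.algebraMap_apply K D.R F]
  have h2 : thetaC D c (D.jR - algebraMap K D.R a) = fun w => jFun w - jFun z0 := by
    rw [map_sub, thetaC_jR, thetaC_algebraMap, ha]
    rfl
  have hne : D.jR - algebraMap K D.R a ≠ 0 := by
    intro h0
    rw [h0, map_zero] at h2
    obtain ⟨w, hw⟩ := jFun_surjective (jFun z0 + 1)
    have := congrFun h2 w
    simp only [Pi.zero_apply, hw] at this
    simp at this
  unfold wPt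
  rw [h1, ordAtPt_algebraMap (thetaC_injective D c) (thetaC_mdiff D c) z0 hne, h2]

/-- `w_x`, generic point: `e0 = 1`. -/
theorem wPt_j_sub_generic (z0 : ℍ) (c : SL(2, ℤ) ⧸ Γ) (a : K) (ha : ι a = jFun z0)
    (h0 : jFun z0 ≠ 0) (h1 : jFun z0 ≠ 1728) :
    wPt D z0 c (D.j - algebraMap K F a) = (1 : ℕ) := by
  rw [wPt_j_sub D z0 c a ha]
  congr 1
  exact ordH_eq_of_ordAt_eq (jFun_sub_mdiff z0) (jFun_sub_ne_zero z0)
    (by exact_mod_cast ordAt_jFun_sub_of_generic h0 h1)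

/-- `w_x` at `i`: `e0 = 2`, `a = 1728`. -/
theorem wPt_j_sub_I (c : SL(2, ℤ) ⧸ Γ) :
    wPt D UpperHalfPlane.I c (D.j - algebraMap K F 1728) = (2 : ℕ) := by
  have ha : ι (1728 : K) = jFun UpperHalfPlane.I := by
    rw [jFun_I]; exact map_ofNat ι 1728
  rw [wPt_j_sub D _ c 1728 ha]
  congr 1
  exact ordH_eq_of_ordAt_eq (jFun_sub_mdiff _) (jFun_sub_ne_zero _)
    (by exact_mod_cast ordAt_jFun_sub_of_eq_1728 jFun_I)

/-- `w_x` at `ρ`: `e0 = 3`, `a = 0`. -/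
theorem wPt_j_sub_ρ (c : SL(2, ℤ) ⧸ Γ) :
    wPt D UpperHalfPlane.ρ c (D.j - algebraMap K F 0) = (3 : ℕ) := by
  have ha : ι (0 : K) = jFun UpperHalfPlane.ρ := by
    rw [jFun_ρ]; exact map_zero ι
  rw [wPt_j_sub D _ c 0 ha]
  congr 1
  exact ordH_eq_of_ordAt_eq (jFun_sub_mdiff _) (jFun_sub_ne_zero _)
    (by exact_mod_cast ordAt_jFun_sub_of_eq_zero jFun_ρ)

/-! ## `S ^ 2` and `(S T) ^ 3` act trivially on the cosets -/

theorem neg_one_smul_coset (hneg : (-1 : SL(2, ℤ)) ∈ Γ) (c : SL(2, ℤ) ⧸ Γ) :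
    (-1 : SL(2, ℤ)) • c = c := by
  obtain ⟨γ, rfl⟩ := QuotientGroup.mk_surjective c
  rw [MulAction.Quotient.smul_mk, QuotientGroup.eq]
  have : ((-1 : SL(2, ℤ)) • γ)⁻¹ * γ = -1 := by
    rw [smul_eq_mul, neg_one_mul, inv_neg, neg_mul, inv_mul_cancel]
  rw [this]
  exact hneg

/-- `hg` for `g = S`, `e0 = 2`. -/
theorem modS_sq_smul_coset (hneg : (-1 : SL(2, ℤ)) ∈ Γ) (c : SL(2, ℤ) ⧸ Γ) :
    (ModularGroup.S : SL(2, ℤ)) ^ 2 • c = c := by
  rw [modS_sq_eq_neg_one, neg_one_smul_coset hneg]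

/-- `hg` for `g = S * T`, `e0 = 3`. -/
theorem modST_cube_smul_coset (hneg : (-1 : SL(2, ℤ)) ∈ Γ) (c : SL(2, ℤ) ⧸ Γ) :
    (ModularGroup.S * ModularGroup.T : SL(2, ℤ)) ^ 3 • c = c := by
  rw [modST_cube_eq_neg_one, neg_one_smul_coset hneg]

/-! ## `w_dvd` -/

/-- If `g` fixes the coset `c`, the conjugate `thetaC D c` is `g`-invariant. -/
theorem thetaC_invariant_of_smul_eq {g : SL(2, ℤ)} {c : SL(2, ℤ) ⧸ Γ} (hc : g • c = c)
    (r : D.R) (τ : ℍ) : thetaC D c r (g • τ) = thetaC D c r τ :=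
  cosetHom_invariant_of_smul_eq D.θ_inv hc r τ

/-- `w_dvd` at `i` (`g = S`, `e0 = 2`). -/
theorem wPt_dvd_I (c : SL(2, ℤ) ⧸ Γ) (f : F) (hf : f ≠ 0) :
    ((2 : ℕ) : ℤ) ∣ (Nat.card (orbit (Subgroup.zpowers (ModularGroup.S : SL(2, ℤ))) c) : ℤ) *
      wPt D UpperHalfPlane.I c f :=
  dvd_natCard_orbit_mul _ c Nat.prime_two (modS_sq_smul_coset D.neg_mem c) fun hfix =>
    two_dvd_ordAtPt_I (thetaC_injective D c) (thetaC_mdiff D c)
      (thetaC_invariant_of_smul_eq D hfix) hf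

/-- `w_dvd` at `ρ` (`g = S * T`, `e0 = 3`). -/
theorem wPt_dvd_ρ (c : SL(2, ℤ) ⧸ Γ) (f : F) (hf : f ≠ 0) :
    ((3 : ℕ) : ℤ) ∣
      (Nat.card (orbit (Subgroup.zpowers (ModularGroup.S * ModularGroup.T : SL(2, ℤ))) c) : ℤ) *
      wPt D UpperHalfPlane.ρ c f :=
  dvd_natCard_orbit_mul _ c Nat.prime_three (modST_cube_smul_coset D.neg_mem c) fun hfix =>
    three_dvd_ordAtPt_ρ (thetaC_injective D c) (thetaC_mdiff D c)
      (thetaC_invariant_of_smul_eq D hfix) hf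

/-- `w_dvd` for `e0 = 1` (trivial). -/
theorem wPt_dvd_one (z0 : ℍ) (g : SL(2, ℤ)) (c : SL(2, ℤ) ⧸ Γ) (f : F) :
    ((1 : ℕ) : ℤ) ∣ (Nat.card (orbit (Subgroup.zpowers g) c) : ℤ) * wPt D z0 c f := by
  simp

/-! ## `w_int` -/

/-- `w_int` at an interior point, given the degree `[F : K(j)] = #cosets` and the pairwise
distinctness of the conjugates. -/
theorem wPt_int [CharZero K] [Fintype (SL(2, ℤ) ⧸ Γ)] [FiniteDimensional K⟮D.j⟯ F]
    (hcard : Fintype.card (SL(2, ℤ) ⧸ Γ) = Module.finrank K⟮D.j⟯ F)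
    (hdist : Function.Injective (thetaC D)) (z0 : ℍ) (f : F) (hf : f ≠ 0)
    (hpos : ∀ c, 0 ≤ wPt D z0 c f) (i : ℕ) :
    (minpoly K⟮D.j⟯ f).coeff i = 0 ∨
      ∀ c, 0 ≤ wPt D z0 c (((minpoly K⟮D.j⟯ f).coeff i : K⟮D.j⟯) : F) :=
  coeff_minpoly_ordAtPt_nonneg (K := K) (R := D.R) D.j hcard (thetaC D)
    (thetaC_injective D) (thetaC_mdiff D) hdist
    (fun k c c' => by rw [thetaC_algebraMap, thetaC_algebraMap])
    D.jR D.algebraMap_jR (fun c c' => by rw [thetaC_jR, thetaC_jR])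
    z0 hf hpos i

end Fermat.Agent.DS.X1.Places
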