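import Mathlib
import Fermat.Agent.DS.X1.Places.Real
import Fermat.Agent.X0.CuspComplete

/-!
# PROGRAMME III, port leaf X1-AN-6 (helper6): generic cusp valuations

Twin of the `Γ₀(N)`-specific glue of `X0/ValInfPsi.lean` (section `WInf`) and of
`X0/CuspComplete.lean` (section `PsiInstance`) for a realisation `D : ModReal K ι Γ W F`:
the valuations `wInf D c` (order at `i∞` in `q_W` of the `c`-conjugate) with the hypotheses
`w_mul, w_add, w_const, w_x, w_eps, w_div, w_int` of the abstract counting lemma.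
-/

set_option autoImplicit false
set_option linter.unusedSectionVars false

namespace Fermat.Agent.DS.X1.Places

open Fermat.Agent.X0
open UpperHalfPlane Filter Topology IntermediateField MulAction Function
open scoped Manifold MatrixGroups

variable {K : Type*} [Field K] {ι : K →+* ℂ} {Γ : Subgroup SL(2, ℤ)} {W : ℕ} [NeZero W]
  {F : Type*} [Field F] [Algebra K F]

variable (D : ModReal K ι Γ W F)

/-- `θ` is `Γ(W)`-invariant. -/
theorem θ_inv_Gamma : ∀ γ ∈ CongruenceSubgroup.Gamma W, ∀ (r : D.R) (τ : ℍ),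
    D.θ r (γ • τ) = D.θ r τ :=
  fun γ hγ r τ => D.θ_inv γ (D.gamma_le hγ) r τ

/-- All conjugates of `θ` have orders at `∞`. -/
theorem hasOrdsInf_thetaC (c : SL(2, ℤ) ⧸ Γ) : HasOrdsInf W (cosetHom Γ D.θ c) :=
  hasOrdsInf_cosetHom D.θ_inj D.θ_mdiff (θ_inv_Gamma D) (fun g r => D.θ_mero r g) Γ c

/-- The valuation of `F` at the cusp `c⁻¹ ∞`: order at `i∞` (in `q_W`) of the `c`-conjugate. -/
noncomputable def wInf (c : SL(2, ℤ) ⧸ Γ) : F → ℤ :=
  ordAtInf (R := D.R) W (cosetHom Γ D.θ c)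

theorem wInf_mul (c : SL(2, ℤ) ⧸ Γ) (f g : F) (hf : f ≠ 0) (hg : g ≠ 0) :
    wInf D c (f * g) = wInf D c f + wInf D c g :=
  ordAtInf_mul (hasOrdsInf_thetaC D c) hf hg

theorem wInf_add (c : SL(2, ℤ) ⧸ Γ) (f g : F) (hf : f ≠ 0) (hg : g ≠ 0) (hfg : f + g ≠ 0) :
    min (wInf D c f) (wInf D c g) ≤ wInf D c (f + g) :=
  ordAtInf_add (hasOrdsInf_thetaC D c) hf hg hfg

theorem wInf_const (c : SL(2, ℤ) ⧸ Γ) (a : K) (ha : a ≠ 0) :
    wInf D c (algebraMap K F a) = 0 := by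
  have h : algebraMap K F a = algebraMap D.R F (algebraMap K D.R a) :=
    IsScalarTower.algebraMap_apply K D.R F a
  rw [h]
  exact ordAtInf_cosetHom_of_const (hasOrdsInf_thetaC D c)
    ((map_ne_zero ι).mpr ha) (D.θ_const a)

theorem wInf_x (c : SL(2, ℤ) ⧸ Γ) : wInf D c (D.j)⁻¹ = W := by
  rw [← D.algebraMap_jR]
  exact ordAtInf_cosetHom_inv_of_jFun (hasOrdsInf_thetaC D c) D.θ_jR

theorem wInf_eps (c : SL(2, ℤ) ⧸ Γ) (f : F) :
    wInf D ((MulAction.toPerm ModularGroup.T : Equiv.Perm (SL(2, ℤ) ⧸ Γ)) c) f = wInf D c f := by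
  unfold wInf
  rw [MulAction.toPerm_apply, ordAtInf_cosetHom_T_smul D.θ_inv c]

theorem wInf_div (c : SL(2, ℤ) ⧸ Γ) (k : ℕ) (hk : k ∣ W)
    (hc : ((MulAction.toPerm ModularGroup.T : Equiv.Perm (SL(2, ℤ) ⧸ Γ)) ^ k) c = c) (f : F)
    (hf : f ≠ 0) : ((W / k : ℕ) : ℤ) ∣ wInf D c f := by
  rw [toPerm_pow_apply] at hc
  exact dvd_ordAtInf_cosetHom D.θ_inv (hasOrdsInf_thetaC D c) hk hc hf

/-- `T ^ W` acts trivially on the cosets of `Γ ⊇ Γ(W)`. -/
theorem toPerm_T_pow_eq_one_of_gamma_le (hΓ : CongruenceSubgroup.Gamma W ≤ Γ) :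
    (MulAction.toPerm ModularGroup.T : Equiv.Perm (SL(2, ℤ) ⧸ Γ)) ^ W = 1 := by
  ext c
  rw [toPerm_pow_apply, Equiv.Perm.one_apply]
  obtain ⟨g, rfl⟩ := QuotientGroup.mk_surjective c
  rw [MulAction.Quotient.smul_mk, smul_eq_mul, QuotientGroup.eq]
  have hT : ModularGroup.T ^ W ∈ CongruenceSubgroup.Gamma W := by
    rw [CongruenceSubgroup.Gamma_mem, ← zpow_natCast, ModularGroup.coe_T_zpow]
    simp
  have h2 : (ModularGroup.T ^ W * g)⁻¹ * g = g⁻¹ * (ModularGroup.T ^ W)⁻¹ * g := by group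
  rw [h2]
  apply hΓ
  have := (CongruenceSubgroup.Gamma_normal W).conj_mem _
    ((CongruenceSubgroup.Gamma W).inv_mem hT) g⁻¹
  simpa using this

/-! ## `w_int` at the cusp -/

/-- The conjugates of `θ r` are `W`-periodic, holomorphic and meromorphic at `i∞`. -/
theorem isModFunN_thetaC (c : SL(2, ℤ) ⧸ Γ) (r : D.R) :
    IsModFunN W (cosetHom Γ D.θ c r) where
  mdiff := cosetHom_mdiff _ D.θ_mdiff c r
  periodic z :=
    vadd_periodic_of_Gamma_invariant W (fun γ hγ τ => θ_inv_Gamma D γ hγ r τ) _ z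
  cusp := D.θ_mero r _

/-- **`w_int` at the cusp**: if all `wInf D c f ≥ 0`, the coefficients of the minimal polynomial
of `f` over `K(j)` have non-negative `wInf D c` for all `c`. -/
theorem coeff_minpoly_wInf_nonneg [CharZero K] [FiniteDimensional K⟮D.j⟯ F]
    [Fintype (SL(2, ℤ) ⧸ Γ)]
    (hX : Fintype.card (SL(2, ℤ) ⧸ Γ) = Module.finrank K⟮D.j⟯ F)
    (hdist : Function.Injective (fun c : SL(2, ℤ) ⧸ Γ => cosetHom Γ D.θ c))
    {f : F} (hf : f ≠ 0) (hpos : ∀ c, 0 ≤ wInf D c f) (i : ℕ) :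
    (minpoly K⟮D.j⟯ f).coeff i = 0 ∨
      ∀ c, 0 ≤ wInf D c (((minpoly K⟮D.j⟯ f).coeff i : K⟮D.j⟯) : F) := by
  refine coeff_minpoly_ordAtInf_nonneg (K := K) (R := D.R) W D.j hX
    (fun c => cosetHom Γ D.θ c)
    (fun c => cosetHom_injective _ D.θ_inj c)
    (fun c r => isModFunN_thetaC D c r) hdist ?_ D.jR D.algebraMap_jR ?_ hf hpos i
  · intro k c c'
    funext τ
    unfold cosetHom
    simp only [conjHom_apply, D.θ_const]
  · intro c c'
    funext τ
    unfold cosetHom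
    simp only [conjHom_apply, D.θ_jR, jFun_smul]

end Fermat.Agent.DS.X1.Places
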