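import Mathlib
import Fermat.Agent.DS.X1.Places.Real
import Fermat.Agent.DS.X1.Places.Inf
import Fermat.Agent.X0.ModFinalCore

/-!
# PROGRAMME III, port leaf X1-AN-6 (helper6): places and ramification of `F/K(j)` from a realisation

Twin of `X0/ModFinalCore.lean`, `X0/ModFinalHyp.lean` and `Good/RamDataBar.lean` for a realisation
`D : ModReal K ι Γ W F` (`K` algebraically closed of characteristic zero).  Hypotheses (from the
degree leaf AN-3): `hsep : IsSepVar K D.j d`, `hcard : #(SL(2,ℤ) ⧸ Γ) = d` and the pairwise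
distinctness `hdist` of the conjugates.

* `card_placesOver_of_wPt` : places over `j = a` ↔ orbits of `g` on the cosets;
* `ord_j_sub_le_one`, `ord_j_dvd_three`, `ord_j_sub_1728_dvd_two`, `neg_ord_j_dvd_width`;
* `card_placesOver_1728`, `card_placesOver_zero`, `card_placesOverInfty`.
-/

set_option autoImplicit false
set_option linter.unusedSectionVars false

namespace Fermat.Agent.DS.X1.Places

open Fermat.Agent.X0
open AlgebraicCurve IntermediateField MulAction Function UpperHalfPlane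
open scoped MatrixGroups

variable {K : Type*} [Field K] [IsAlgClosed K] [CharZero K] {ι : K →+* ℂ}
  {Γ : Subgroup SL(2, ℤ)} {W : ℕ} [NeZero W] {F : Type*} [Field F] [Algebra K F]

variable (D : ModReal K ι Γ W F) {d : ℕ}

/-! ## Interior points -/

/-- The interior valuations are valuation-like. -/
theorem isValLike_wPt (z0 : ℍ) (c : SL(2, ℤ) ⧸ Γ) : IsValLike K (wPt D z0 c) where
  w_mul := wPt_mul D z0 c
  w_add := wPt_add D z0 c
  w_const := wPt_alg D z0 c

/-- **Places over `j = a` ↔ orbits**, from the interior valuations at a point `z0` with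
`j(z0) = a` fixed by `g`. -/
theorem card_placesOver_of_wPt [Fintype (SL(2, ℤ) ⧸ Γ)] (hsep : IsSepVar K D.j d)
    (hcard : Fintype.card (SL(2, ℤ) ⧸ Γ) = d)
    (hdist : Function.Injective (thetaC D)) (a : K) (z0 : ℍ) (g : SL(2, ℤ)) (e₀ : ℕ)
    (he₀ : 0 < e₀) (hz : g • z0 = z0)
    (hg : ∀ c : SL(2, ℤ) ⧸ Γ, g ^ e₀ • c = c)
    (hx : ∀ c, wPt D z0 c (D.j - algebraMap K F a) = e₀)
    (hdvd : ∀ c f, f ≠ 0 →
      (e₀ : ℤ) ∣ (Nat.card (orbit (Subgroup.zpowers g) c) : ℤ) * wPt D z0 c f) :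
    Nat.card (placesOver D.j a) =
        Nat.card (MulAction.orbitRel.Quotient
          (Subgroup.zpowers (MulAction.toPerm g : Equiv.Perm (SL(2, ℤ) ⧸ Γ))) (SL(2, ℤ) ⧸ Γ)) ∧
      ∀ v : Place K F, 0 < v.ord (D.j - algebraMap K F a) →
        v.ord (D.j - algebraMap K F a) ∣ (e₀ : ℤ) := by
  classical
  have : FiniteDimensional K⟮D.j⟯ F := hsep.finite
  have hcard' : Fintype.card (SL(2, ℤ) ⧸ Γ) = Module.finrank K⟮D.j⟯ F := by
    rw [hcard, hsep.finrank_eq]
  set x : F := D.j - algebraMap K F a with hxdef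
  have hxsep : IsSepVar K x d := isSepVar_sub_const hsep a
  have hx0 : x ≠ 0 := by
    intro h0
    exact hxsep.transcendental (h0 ▸ isAlgebraic_zero)
  have hE : K⟮D.j⟯ ≤ K⟮x⟯ := (adjoin_simple_sub_algebraMap D.j a).ge
  have key := card_places_eq_card_orbits (K := K) (F := F) hxsep
    (C := SL(2, ℤ) ⧸ Γ) hcard
    (MulAction.toPerm g) e₀ he₀ (toPerm_pow_eq_one_of_smul g e₀ hg) (wPt D z0)
    (wPt_mul D z0) (wPt_add D z0) (wPt_alg D z0) hx
    (fun c f => by rw [MulAction.toPerm_apply]; exact wPt_smul D hz c f)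
    (fun c k hk hfix f hf => dvd_of_dvd_natCard_orbit_mul g c he₀ hk hfix (hdvd c f hf))
    (fun f hf hpos v hv => by
      let c₀ : SL(2, ℤ) ⧸ Γ := ((1 : SL(2, ℤ)) : _)
      have hW := isValLike_wPt D z0 c₀
      have hy : 0 < wPt D z0 c₀ x := by
        rw [hx c₀]
        exact_mod_cast he₀
      have hfint : IsIntegral K⟮D.j⟯ f := Algebra.IsIntegral.isIntegral f
      refine ord_nonneg_of_minpoly_coeff hW hx0 hy K⟮D.j⟯ hE hfint (fun i => ?_) v hv
      rcases wPt_int D hcard' hdist z0 f hf hpos i with h | h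
      · exact Or.inl h
      · exact Or.inr (h c₀))
  refine ⟨?_, key.2⟩
  rw [← key.1]
  rfl

/-- **`j` is unramified outside `0, 1728, ∞`**. -/
theorem ord_j_sub_le_one [Fintype (SL(2, ℤ) ⧸ Γ)] (hsep : IsSepVar K D.j d)
    (hcard : Fintype.card (SL(2, ℤ) ⧸ Γ) = d) (hdist : Function.Injective (thetaC D))
    (v : Place K F) (a : K) (h0 : a ≠ 0) (h1 : a ≠ 1728) :
    v.ord (D.j - algebraMap K F a) ≤ 1 := by
  obtain ⟨z0, hz0⟩ := jFun_surjective (ι a)
  have hj0 : jFun z0 ≠ 0 := by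
    rw [hz0]
    exact (map_ne_zero ι).mpr h0
  have hj1 : jFun z0 ≠ 1728 := by
    rw [hz0]
    intro h
    apply h1
    apply ι.injective
    rw [h]
    exact (map_ofNat ι 1728).symm
  have key := (card_placesOver_of_wPt D hsep hcard hdist a z0 1 1 one_pos (one_smul _ z0)
    (fun c => by rw [pow_one, one_smul])
    (fun c => wPt_j_sub_generic D z0 c a hz0.symm hj0 hj1)
    (fun c f _ => wPt_dvd_one D z0 1 c f)).2 v
  by_cases hv : 0 < v.ord (D.j - algebraMap K F a)
  · have h := Int.le_of_dvd one_pos (by simpa using key hv)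
    exact h
  · omega

/-- Over `j = 1728`: places ↔ orbits of `S`, and every ramification index divides `2`. -/
theorem placesOver_1728 [Fintype (SL(2, ℤ) ⧸ Γ)] (hsep : IsSepVar K D.j d)
    (hcard : Fintype.card (SL(2, ℤ) ⧸ Γ) = d) (hdist : Function.Injective (thetaC D)) :
    Nat.card (placesOver D.j (1728 : K)) =
        Nat.card (MulAction.orbitRel.Quotient
          (Subgroup.zpowers (MulAction.toPerm (ModularGroup.S : SL(2, ℤ)) :
            Equiv.Perm (SL(2, ℤ) ⧸ Γ))) (SL(2, ℤ) ⧸ Γ)) ∧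
      ∀ v : Place K F, 0 < v.ord (D.j - algebraMap K F 1728) →
        v.ord (D.j - algebraMap K F 1728) ∣ ((2 : ℕ) : ℤ) :=
  card_placesOver_of_wPt D hsep hcard hdist 1728 UpperHalfPlane.I ModularGroup.S 2 two_pos
    S_smul_I (modS_sq_smul_coset D.neg_mem) (wPt_j_sub_I D) (wPt_dvd_I D)

/-- Over `j = 0`: places ↔ orbits of `S T`, and every ramification index divides `3`. -/
theorem placesOver_zero [Fintype (SL(2, ℤ) ⧸ Γ)] (hsep : IsSepVar K D.j d)
    (hcard : Fintype.card (SL(2, ℤ) ⧸ Γ) = d) (hdist : Function.Injective (thetaC D)) :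
    Nat.card (placesOver D.j (0 : K)) =
        Nat.card (MulAction.orbitRel.Quotient
          (Subgroup.zpowers (MulAction.toPerm (ModularGroup.S * ModularGroup.T : SL(2, ℤ)) :
            Equiv.Perm (SL(2, ℤ) ⧸ Γ))) (SL(2, ℤ) ⧸ Γ)) ∧
      ∀ v : Place K F, 0 < v.ord (D.j - algebraMap K F 0) →
        v.ord (D.j - algebraMap K F 0) ∣ ((3 : ℕ) : ℤ) :=
  card_placesOver_of_wPt D hsep hcard hdist 0 UpperHalfPlane.ρ (ModularGroup.S * ModularGroup.T) 3
    (by norm_num) ST_smul_ρ (modST_cube_smul_coset D.neg_mem) (wPt_j_sub_ρ D) (wPt_dvd_ρ D)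

theorem card_placesOver_1728 [Fintype (SL(2, ℤ) ⧸ Γ)] (hsep : IsSepVar K D.j d)
    (hcard : Fintype.card (SL(2, ℤ) ⧸ Γ) = d) (hdist : Function.Injective (thetaC D)) :
    Nat.card (placesOver D.j (1728 : K)) =
      Nat.card (MulAction.orbitRel.Quotient
        (Subgroup.zpowers (MulAction.toPerm (ModularGroup.S : SL(2, ℤ)) :
          Equiv.Perm (SL(2, ℤ) ⧸ Γ))) (SL(2, ℤ) ⧸ Γ)) :=
  (placesOver_1728 D hsep hcard hdist).1

theorem card_placesOver_zero [Fintype (SL(2, ℤ) ⧸ Γ)] (hsep : IsSepVar K D.j d)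
    (hcard : Fintype.card (SL(2, ℤ) ⧸ Γ) = d) (hdist : Function.Injective (thetaC D)) :
    Nat.card (placesOver D.j (0 : K)) =
      Nat.card (MulAction.orbitRel.Quotient
        (Subgroup.zpowers (MulAction.toPerm (ModularGroup.S * ModularGroup.T : SL(2, ℤ)) :
          Equiv.Perm (SL(2, ℤ) ⧸ Γ))) (SL(2, ℤ) ⧸ Γ)) :=
  (placesOver_zero D hsep hcard hdist).1

/-- Over `j = 0` every ramification index divides `3`. -/
theorem ord_j_dvd_three [Fintype (SL(2, ℤ) ⧸ Γ)] (hsep : IsSepVar K D.j d)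
    (hcard : Fintype.card (SL(2, ℤ) ⧸ Γ) = d) (hdist : Function.Injective (thetaC D))
    (v : Place K F) (hv : 0 < v.ord D.j) : v.ord D.j ∣ (3 : ℤ) := by
  have key := (placesOver_zero D hsep hcard hdist).2 v
  simp only [map_zero, sub_zero] at key
  exact_mod_cast key hv

/-- Over `j = 1728` every ramification index divides `2`. -/
theorem ord_j_sub_1728_dvd_two [Fintype (SL(2, ℤ) ⧸ Γ)] (hsep : IsSepVar K D.j d)
    (hcard : Fintype.card (SL(2, ℤ) ⧸ Γ) = d) (hdist : Function.Injective (thetaC D))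
    (v : Place K F) (hv : 0 < v.ord (D.j - algebraMap K F 1728)) :
    v.ord (D.j - algebraMap K F 1728) ∣ (2 : ℤ) := by
  have key := (placesOver_1728 D hsep hcard hdist).2 v
  exact_mod_cast key hv

/-! ## The cusps -/

theorem isValLike_wInf (c : SL(2, ℤ) ⧸ Γ) : IsValLike K (wInf D c) where
  w_mul := wInf_mul D c
  w_add := wInf_add D c
  w_const := wInf_const D c

/-- **Poles of `j` ↔ orbits of `T`**, and every pole order of `j` divides the width bound `W`. -/
theorem placesOverInfty_aux [Fintype (SL(2, ℤ) ⧸ Γ)] (hsep : IsSepVar K D.j d)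
    (hcard : Fintype.card (SL(2, ℤ) ⧸ Γ) = d) (hdist : Function.Injective (thetaC D)) :
    Nat.card {v : Place K F // 0 < v.ord (D.j)⁻¹} =
        Nat.card (MulAction.orbitRel.Quotient
          (Subgroup.zpowers (MulAction.toPerm (ModularGroup.T : SL(2, ℤ)) :
            Equiv.Perm (SL(2, ℤ) ⧸ Γ))) (SL(2, ℤ) ⧸ Γ)) ∧
      ∀ v : Place K F, 0 < v.ord (D.j)⁻¹ → v.ord (D.j)⁻¹ ∣ (W : ℤ) := by
  classical
  have : FiniteDimensional K⟮D.j⟯ F := hsep.finite
  have hcard' : Fintype.card (SL(2, ℤ) ⧸ Γ) = Module.finrank K⟮D.j⟯ F := by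
    rw [hcard, hsep.finrank_eq]
  have hW : 0 < W := Nat.pos_of_ne_zero (NeZero.ne W)
  set x : F := (D.j)⁻¹ with hxdef
  have hxsep : IsSepVar K x d := isSepVar_inv hsep
  have hx0 : x ≠ 0 := by
    intro h0
    exact hxsep.transcendental (h0 ▸ isAlgebraic_zero)
  have hE : K⟮D.j⟯ ≤ K⟮x⟯ := (adjoin_simple_inv D.j).ge
  exact card_places_eq_card_orbits (K := K) (F := F) hxsep
    (C := SL(2, ℤ) ⧸ Γ) hcard
    (MulAction.toPerm ModularGroup.T) W hW (toPerm_T_pow_eq_one_of_gamma_le D.gamma_le) (wInf D)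
    (wInf_mul D) (wInf_add D) (wInf_const D) (wInf_x D) (wInf_eps D)
    (fun c k hk hfix f hf => wInf_div D c k hk hfix f hf)
    (fun f hf hpos v hv => by
      let c₀ : SL(2, ℤ) ⧸ Γ := ((1 : SL(2, ℤ)) : _)
      have hWl := isValLike_wInf D c₀
      have hy : 0 < wInf D c₀ x := by
        rw [wInf_x D c₀]
        exact_mod_cast hW
      have hfint : IsIntegral K⟮D.j⟯ f := Algebra.IsIntegral.isIntegral f
      refine ord_nonneg_of_minpoly_coeff hWl hx0 hy K⟮D.j⟯ hE hfint (fun i => ?_) v hv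
      rcases coeff_minpoly_wInf_nonneg D hcard' hdist hf hpos i with h | h
      · exact Or.inl h
      · exact Or.inr (h c₀))

/-- **Poles of `j` ↔ orbits of `T`**. -/
theorem card_placesOverInfty [Fintype (SL(2, ℤ) ⧸ Γ)] (hsep : IsSepVar K D.j d)
    (hcard : Fintype.card (SL(2, ℤ) ⧸ Γ) = d) (hdist : Function.Injective (thetaC D)) :
    Nat.card (placesOverInfty K D.j) =
      Nat.card (MulAction.orbitRel.Quotient
        (Subgroup.zpowers (MulAction.toPerm (ModularGroup.T : SL(2, ℤ)) :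
          Equiv.Perm (SL(2, ℤ) ⧸ Γ))) (SL(2, ℤ) ⧸ Γ)) := by
  rw [← (placesOverInfty_aux D hsep hcard hdist).1]
  apply Nat.card_congr
  refine Equiv.subtypeEquivRight fun v => ?_
  rw [mem_placesOverInfty, Place.ord_inv]
  omega

/-- At the cusps every ramification index (pole order of `j`) divides `W`. -/
theorem neg_ord_j_dvd_width [Fintype (SL(2, ℤ) ⧸ Γ)] (hsep : IsSepVar K D.j d)
    (hcard : Fintype.card (SL(2, ℤ) ⧸ Γ) = d) (hdist : Function.Injective (thetaC D))
    (v : Place K F) (hv : v.ord D.j < 0) : (- v.ord D.j) ∣ (W : ℤ) := by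
  have key := (placesOverInfty_aux D hsep hcard hdist).2 v
  rw [Place.ord_inv] at key
  exact key (by omega)

end Fermat.Agent.DS.X1.Places
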