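import Mathlib
import Fermat.Agent.DS.X1.DegGen
import Fermat.Agent.DS.X1.Places.Final
import Fermat.Agent.DS.X1.Good.RamGen

/-!
# PROGRAMME III, X1-AN-6 ⇐ AN-A/AN-3 (helper6): from the generic realisation layer to places

Glue between helper23's generic layer (`DS/X1/{PsiGen, DegGen}`: `HasReal iotaC Γ S`, `PsiGen`,
`isSepVar_gen`) and the places/ramification layer (`DS/X1/Places/{Real, Inf, Final}`).

From EXACTLY the hypotheses of `isSepVar_gen` (`hS, F, hRF, hfrac, xR, hxq, hb, hdist`) plus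
`-1 ∈ Γ` and `Γ(W) ≤ Γ`:

* `modRealOfGen : ModReal Kb iotaC Γ W F` with `(modRealOfGen …).j = inclRF F hRF xR`;
* `thetaC_injective_of_gen` : the conjugates are pairwise distinct;
* `jRamData_of_gen : Good.RamGen.JRamData Kb (inclRF F hRF xR) W` (the input of G-RAM);
* the counts of the places over `0`, `1728`, `∞`.
-/

set_option autoImplicit false
set_option linter.unusedSectionVars false
set_option linter.style.haveILetI false

noncomputable section

namespace Fermat.Agent.DS.X1.Places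

open UpperHalfPlane ModularCurve AlgebraicCurve Fermat.Agent.X0 Fermat.Agent.S23 Fermat.Agent.DS.X1
open scoped MatrixGroups Manifold

local notation "Δ" => ModularForm.discriminant

variable {Γ : Subgroup SL(2, ℤ)} {S : Set (LaurentSeries Kb)}
  (hS : HasReal iotaC Γ S) (F : IntermediateField Kb (LaurentSeries Kb))
  (hRF : ∀ r ∈ Algebra.adjoin Kb S, r ∈ F)

/-- the image of `ℚ̄[S]` in `F` -/
def ROfGen : Subalgebra Kb F := (inclRF F hRF).range

/-- `ℚ̄[S]` is isomorphic to its image in `F` -/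
def equivROfGen : Algebra.adjoin Kb S ≃ₐ[Kb] ROfGen F hRF :=
  AlgEquiv.ofInjective (inclRF F hRF) (inclRF_injective F hRF)

theorem coe_equivROfGen (r : Algebra.adjoin Kb S) :
    ((equivROfGen F hRF r : ROfGen F hRF) : F) = inclRF F hRF r := rfl

/-- the realisation on the image -/
def thetaOfGen : ROfGen F hRF →+* (ℍ → ℂ) :=
  (PsiGen hS).comp ((equivROfGen F hRF).symm : ROfGen F hRF →+* Algebra.adjoin Kb S)

theorem thetaOfGen_apply (r : ROfGen F hRF) :
    thetaOfGen hS F hRF r = PsiGen hS ((equivROfGen F hRF).symm r) := rfl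

theorem thetaOfGen_equiv (r : Algebra.adjoin Kb S) :
    thetaOfGen hS F hRF (equivROfGen F hRF r) = PsiGen hS r := by
  rw [thetaOfGen_apply, AlgEquiv.symm_apply_apply]

theorem thetaOfGen_injective : Function.Injective (thetaOfGen hS F hRF) :=
  (PsiGen_injective hS).comp (equivROfGen F hRF).symm.injective

theorem isFractionRing_ROfGen
    (hfrac : ∀ f : F, ∃ g h : Algebra.adjoin Kb S, h ≠ 0 ∧
      (f : LaurentSeries Kb) * (h : LaurentSeries Kb) = g) :
    IsFractionRing (ROfGen F hRF) F :=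
  IsFractionRing.of_field _ _ fun f => by
    obtain ⟨g, h, hh, hfg⟩ := hfrac f
    refine ⟨equivROfGen F hRF g, equivROfGen F hRF h, ?_⟩
    have hhF : inclRF F hRF h ≠ 0 := fun h0 =>
      hh (inclRF_injective F hRF (by rw [h0, map_zero]))
    show f = inclRF F hRF g / inclRF F hRF h
    rw [eq_div_iff hhF]
    exact Subtype.ext hfg

/-- **the realisation data of `F`** from helper23's generic layer. -/
def modRealOfGen (W : ℕ)
    (hfrac : ∀ f : F, ∃ g h : Algebra.adjoin Kb S, h ≠ 0 ∧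
      (f : LaurentSeries Kb) * (h : LaurentSeries Kb) = g)
    (xR : Algebra.adjoin Kb S) (hxq : (xR : LaurentSeries Kb) = coeffEmb Kb jq)
    (hb : ∀ (r : Algebra.adjoin Kb S) (γ : SL(2, ℤ)), ∃ m : ℕ,
      IsBoundedAtImInfty (fun z => Δ z ^ m * PsiGen hS r (γ • z)))
    (hneg : (-1 : SL(2, ℤ)) ∈ Γ) (hΓW : CongruenceSubgroup.Gamma W ≤ Γ) :
    ModReal Kb iotaC Γ W F where
  R := ROfGen F hRF
  isFrac := isFractionRing_ROfGen F hRF hfrac
  θ := thetaOfGen hS F hRF
  θ_inj := thetaOfGen_injective hS F hRF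
  θ_mdiff r := PsiGen_mdiff hS _
  θ_inv γ hγ r τ := PsiGen_smul hS _ γ hγ τ
  θ_const k := by
    have h : algebraMap Kb (ROfGen F hRF) k =
        equivROfGen F hRF (algebraMap Kb (Algebra.adjoin Kb S) k) :=
      ((equivROfGen F hRF).commutes k).symm
    rw [h, thetaOfGen_equiv, PsiGen_algebraMap]
  jR := equivROfGen F hRF xR
  θ_jR := by rw [thetaOfGen_equiv, PsiGen_eq_jFun hS xR hxq]
  θ_mero r γ := by
    obtain ⟨m, hm⟩ := hb ((equivROfGen F hRF).symm r) γ
    exact ⟨m, hm⟩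
  neg_mem := hneg
  gamma_le := hΓW

section Main

variable {W : ℕ}
  (hfrac : ∀ f : F, ∃ g h : Algebra.adjoin Kb S, h ≠ 0 ∧
    (f : LaurentSeries Kb) * (h : LaurentSeries Kb) = g)
  (xR : Algebra.adjoin Kb S) (hxq : (xR : LaurentSeries Kb) = coeffEmb Kb jq)
  (hb : ∀ (r : Algebra.adjoin Kb S) (γ : SL(2, ℤ)), ∃ m : ℕ,
    IsBoundedAtImInfty (fun z => Δ z ^ m * PsiGen hS r (γ • z)))
  (hneg : (-1 : SL(2, ℤ)) ∈ Γ) (hΓW : CongruenceSubgroup.Gamma W ≤ Γ)

theorem modRealOfGen_j :
    (modRealOfGen hS F hRF W hfrac xR hxq hb hneg hΓW).j = inclRF F hRF xR := rfl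

theorem modRealOfGen_theta (r : Algebra.adjoin Kb S) :
    (modRealOfGen hS F hRF W hfrac xR hxq hb hneg hΓW).θ (equivROfGen F hRF r) = PsiGen hS r :=
  thetaOfGen_equiv hS F hRF r

/-- **distinctness of the conjugates** from helper23's `hdist`. -/
theorem thetaC_injective_of_gen
    (hdist : ∀ δ : SL(2, ℤ), (∀ (r : Algebra.adjoin Kb S) (z : ℍ),
      PsiGen hS r (δ • z) = PsiGen hS r z) → δ ∈ Γ) :
    Function.Injective (thetaC (modRealOfGen hS F hRF W hfrac xR hxq hb hneg hΓW)) := by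
  set D := modRealOfGen hS F hRF W hfrac xR hxq hb hneg hΓW with hD
  intro c c' h
  induction c using QuotientGroup.induction_on with
  | H γ =>
  induction c' using QuotientGroup.induction_on with
  | H γ' =>
  rw [thetaC_mk, thetaC_mk] at h
  rw [QuotientGroup.eq]
  apply hdist
  intro r z
  have h1 : D.θ (equivROfGen F hRF r) (γ⁻¹ • (γ' • z)) =
      D.θ (equivROfGen F hRF r) (γ'⁻¹ • (γ' • z)) :=
    congrFun (congrArg (fun θ : D.R →+* (ℍ → ℂ) => θ (equivROfGen F hRF r)) h) (γ' • z)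
  rw [inv_smul_smul] at h1
  rw [mul_smul]
  have e : ∀ w : ℍ, D.θ (equivROfGen F hRF r) w = PsiGen hS r w := fun w =>
    congrFun (thetaOfGen_equiv hS F hRF r) w
  rw [e, e] at h1
  exact h1

variable [Γ.FiniteIndex] [NeZero W]
  (hdist : ∀ δ : SL(2, ℤ), (∀ (r : Algebra.adjoin Kb S) (z : ℍ),
    PsiGen hS r (δ • z) = PsiGen hS r z) → δ ∈ Γ)

include hS hfrac hxq hb hneg hΓW hdist

/-- **AN-6 for `F`: the place-level ramification data of `j`** (input of G-RAM). -/
theorem jRamData_of_gen : Good.RamGen.JRamData Kb (inclRF F hRF xR) W := by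
  classical
  haveI : Fintype (SL(2, ℤ) ⧸ Γ) := Fintype.ofFinite _
  set D := modRealOfGen hS F hRF W hfrac xR hxq hb hneg hΓW with hD
  have hsep : IsSepVar Kb D.j (Nat.card (SL(2, ℤ) ⧸ Γ)) :=
    isSepVar_gen hS F hRF hfrac xR hxq hb hdist
  have hcard : Fintype.card (SL(2, ℤ) ⧸ Γ) = Nat.card (SL(2, ℤ) ⧸ Γ) :=
    Nat.card_eq_fintype_card.symm
  have hinj := thetaC_injective_of_gen hS F hRF hfrac xR hxq hb hneg hΓW hdist
  exact
    { sepVar := ⟨_, hsep⟩
      ord_dvd_three := fun v hv => ord_j_dvd_three D hsep hcard hinj v hv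
      ord_sub_dvd_two := fun v hv => ord_j_sub_1728_dvd_two D hsep hcard hinj v hv
      ord_sub_le_one := fun v a h0 h1 => ord_j_sub_le_one D hsep hcard hinj v a h0 h1
      neg_ord_dvd_width := fun v hv => neg_ord_j_dvd_width D hsep hcard hinj v hv }

/-- places over `j = 0` ↔ orbits of `ST` on the cosets -/
theorem card_placesOver_zero_of_gen :
    Nat.card (placesOver (inclRF F hRF xR) (0 : Kb)) =
      Nat.card (MulAction.orbitRel.Quotient
        (Subgroup.zpowers (MulAction.toPerm (ModularGroup.S * ModularGroup.T : SL(2, ℤ)) :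
          Equiv.Perm (SL(2, ℤ) ⧸ Γ))) (SL(2, ℤ) ⧸ Γ)) := by
  classical
  haveI : Fintype (SL(2, ℤ) ⧸ Γ) := Fintype.ofFinite _
  exact card_placesOver_zero (modRealOfGen hS F hRF W hfrac xR hxq hb hneg hΓW)
    (isSepVar_gen hS F hRF hfrac xR hxq hb hdist) Nat.card_eq_fintype_card.symm
    (thetaC_injective_of_gen hS F hRF hfrac xR hxq hb hneg hΓW hdist)

/-- places over `j = 1728` ↔ orbits of `S` on the cosets -/
theorem card_placesOver_1728_of_gen :
    Nat.card (placesOver (inclRF F hRF xR) (1728 : Kb)) =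
      Nat.card (MulAction.orbitRel.Quotient
        (Subgroup.zpowers (MulAction.toPerm (ModularGroup.S : SL(2, ℤ)) :
          Equiv.Perm (SL(2, ℤ) ⧸ Γ))) (SL(2, ℤ) ⧸ Γ)) := by
  classical
  haveI : Fintype (SL(2, ℤ) ⧸ Γ) := Fintype.ofFinite _
  exact card_placesOver_1728 (modRealOfGen hS F hRF W hfrac xR hxq hb hneg hΓW)
    (isSepVar_gen hS F hRF hfrac xR hxq hb hdist) Nat.card_eq_fintype_card.symm
    (thetaC_injective_of_gen hS F hRF hfrac xR hxq hb hneg hΓW hdist)

/-- poles of `j` ↔ orbits of `T` on the cosets -/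
theorem card_placesOverInfty_of_gen :
    Nat.card (placesOverInfty Kb (inclRF F hRF xR)) =
      Nat.card (MulAction.orbitRel.Quotient
        (Subgroup.zpowers (MulAction.toPerm (ModularGroup.T : SL(2, ℤ)) :
          Equiv.Perm (SL(2, ℤ) ⧸ Γ))) (SL(2, ℤ) ⧸ Γ)) := by
  classical
  haveI : Fintype (SL(2, ℤ) ⧸ Γ) := Fintype.ofFinite _
  exact card_placesOverInfty (modRealOfGen hS F hRF W hfrac xR hxq hb hneg hΓW)
    (isSepVar_gen hS F hRF hfrac xR hxq hb hdist) Nat.card_eq_fintype_card.symm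
    (thetaC_injective_of_gen hS F hRF hfrac xR hxq hb hneg hΓW hdist)

end Main

end Fermat.Agent.DS.X1.Places
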