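import Mathlib
import Fermat.Agent.DS.X1.Places.Final
import Fermat.Agent.Jac.DictC.PlaceDict

/-!
# PROGRAMME III, port leaf X1-AN-6, step 2 (helper6): every place is a point place or a cusp place

Generic twin of `Jac/DictC/PlaceDict.lean` for a realisation `D : ModReal K ι Γ W F`:

* `exists_point_of_place` : a place `v` with `0 ≤ v.ord j` is the place of a point `z : ℍ`:
  `ordAtPt D.θ z f = e * v.ord f` for all `f ≠ 0`, where `e` is the exact order of the stabiliser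
  of `z` in `Γ / ±1` (there is `γ ∈ Γ` of finite order fixing `z` with `(denom γ z)²` a primitive
  `e`-th root of unity);
* `exists_cusp_of_place` : a place `v` with `v.ord j < 0` is the place of a cusp `c⁻¹ ∞`:
  `wInf D c f = (W / k) * v.ord f`, `k` the width (`T ^ k • c = c`, `k ∣ W`, `k = - v.ord j`);
* `place_point_or_cusp`.
-/

set_option autoImplicit false
set_option linter.unusedSectionVars false

namespace Fermat.Agent.DS.X1.Places

open Fermat.Agent.X0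
open Fermat.Agent.Jac.DictC (acl_exact_complete pow_smul_eq_of_smul_eq conj_smul_of_smul_eq
  denom_conj_of_smul_eq denom_pow_of_smul_eq isOfFinOrder_modS isOfFinOrder_modST
  isPrimitiveRoot_denom_one)
open AlgebraicCurve IntermediateField MulAction Function UpperHalfPlane
open scoped MatrixGroups

variable {K : Type*} [Field K] [IsAlgClosed K] [CharZero K] {ι : K →+* ℂ}
  {Γ : Subgroup SL(2, ℤ)} {W : ℕ} [NeZero W] {F : Type*} [Field F] [Algebra K F]

variable (D : ModReal K ι Γ W F) {d : ℕ}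

/-! ## Interior points -/

/-- **Exact form of `card_placesOver_of_wPt`**: every place over `j = a` is the place of some
coset `c`, with ramification index the orbit length `k` of `c` under `g`, and
`wPt D z0 c = (e₀ / k) · ord`. -/
theorem exists_coset_of_place_wPt [Fintype (SL(2, ℤ) ⧸ Γ)] (hsep : IsSepVar K D.j d)
    (hcard : Fintype.card (SL(2, ℤ) ⧸ Γ) = d) (hdist : Function.Injective (thetaC D))
    (a : K) (z0 : ℍ) (g : SL(2, ℤ)) (e₀ : ℕ)
    (he₀ : 0 < e₀) (hz : g • z0 = z0)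
    (hg : ∀ c : SL(2, ℤ) ⧸ Γ, g ^ e₀ • c = c)
    (hx : ∀ c, wPt D z0 c (D.j - algebraMap K F a) = e₀)
    (hdvd : ∀ c f, f ≠ 0 →
      (e₀ : ℤ) ∣ (Nat.card (orbit (Subgroup.zpowers g) c) : ℤ) * wPt D z0 c f)
    (v : Place K F) (hv : 0 < v.ord (D.j - algebraMap K F a)) :
    ∃ (c : SL(2, ℤ) ⧸ Γ) (k : ℕ), 0 < k ∧ k ∣ e₀ ∧ g ^ k • c = c ∧
      v.ord (D.j - algebraMap K F a) = k ∧
      ∀ f : F, f ≠ 0 → wPt D z0 c f = ((e₀ / k : ℕ) : ℤ) * v.ord f := by
  classical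
  have : FiniteDimensional K⟮D.j⟯ F := hsep.finite
  have hcard' : Fintype.card (SL(2, ℤ) ⧸ Γ) = Module.finrank K⟮D.j⟯ F := by
    rw [hcard, hsep.finrank_eq]
  set x : F := D.j - algebraMap K F a with hxdef
  have hxsep : IsSepVar K x d := isSepVar_sub_const hsep a
  have hx0 : x ≠ 0 := by
    intro h0
    exact hxsep.transcendental (h0 ▸ isAlgebraic_zero)
  have hE : K⟮D.j⟯ ≤ K⟮x⟯ := (adjoin_simple_sub_algebraMap D.j a).ge
  obtain ⟨c, hcx, hcf⟩ := acl_exact_complete (K := K) (F := F) hxsep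
    (C := SL(2, ℤ) ⧸ Γ) hcard
    (MulAction.toPerm g) e₀ he₀ (toPerm_pow_eq_one_of_smul g e₀ hg) (wPt D z0)
    (wPt_mul D z0) (wPt_add D z0) (wPt_alg D z0) hx
    (fun c f => by rw [MulAction.toPerm_apply]; exact wPt_smul D hz c f)
    (fun c k hk hfix f hf => dvd_of_dvd_natCard_orbit_mul g c he₀ hk hfix (hdvd c f hf))
    (fun f hf hpos v hv => by
      let c₀ : SL(2, ℤ) ⧸ Γ := ((1 : SL(2, ℤ)) : _)
      have hW := isValLike_wPt D z0 c₀
      have hy : 0 < wPt D z0 c₀ x := by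
        rw [hx c₀]
        exact_mod_cast he₀
      have hfint : IsIntegral K⟮D.j⟯ f := Algebra.IsIntegral.isIntegral f
      refine ord_nonneg_of_minpoly_coeff hW hx0 hy K⟮D.j⟯ hE hfint (fun i => ?_) v hv
      rcases wPt_int D hcard' hdist z0 f hf hpos i with h | h
      · exact Or.inl h
      · exact Or.inr (h c₀)) v hv
  set k := minimalPeriod ((MulAction.toPerm g : Equiv.Perm (SL(2, ℤ) ⧸ Γ)) • ·) c with hk
  have hfun : (((MulAction.toPerm g : Equiv.Perm (SL(2, ℤ) ⧸ Γ)) • ·) :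
      SL(2, ℤ) ⧸ Γ → SL(2, ℤ) ⧸ Γ) = (g • ·) := rfl
  have hkpos : 0 < k := by
    have : (0 : ℤ) < k := by rw [← hcx]; exact hv
    exact_mod_cast this
  have hper : IsPeriodicPt (g • ·) e₀ c := by
    unfold IsPeriodicPt IsFixedPt
    rw [smul_iterate]
    exact hg c
  have hkdvd : k ∣ e₀ := by
    rw [hk, hfun]
    exact hper.minimalPeriod_dvd
  have hfix : g ^ k • c = c := by
    have h := isPeriodicPt_minimalPeriod (g • ·) c
    unfold IsPeriodicPt IsFixedPt at h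
    rw [smul_iterate] at h
    rw [hk, hfun]
    exact h
  exact ⟨c, k, hkpos, hkdvd, hfix, hcx, hcf⟩

/-- From a coset to a point: the place attached to `(z0, c)` is the place of the point
`z = (out c)⁻¹ • z0`, and the stabiliser of `z` in `Γ` contains the rotation
`γ = (out c)⁻¹ g ^ k (out c)` of exact order `e₀ / k`. -/
theorem exists_point_of_place_over [Fintype (SL(2, ℤ) ⧸ Γ)] (hsep : IsSepVar K D.j d)
    (hcard : Fintype.card (SL(2, ℤ) ⧸ Γ) = d) (hdist : Function.Injective (thetaC D))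
    (a : K) (z0 : ℍ) (g : SL(2, ℤ)) (e₀ : ℕ)
    (he₀ : 0 < e₀) (hz : g • z0 = z0)
    (hg : ∀ c : SL(2, ℤ) ⧸ Γ, g ^ e₀ • c = c)
    (hx : ∀ c, wPt D z0 c (D.j - algebraMap K F a) = e₀)
    (hdvd : ∀ c f, f ≠ 0 →
      (e₀ : ℤ) ∣ (Nat.card (orbit (Subgroup.zpowers g) c) : ℤ) * wPt D z0 c f)
    (hfin : IsOfFinOrder g)
    (hprim : IsPrimitiveRoot ((denom (g : GL (Fin 2) ℝ) z0) ^ 2) e₀)
    (v : Place K F) (hv : 0 < v.ord (D.j - algebraMap K F a)) :
    ∃ (z : ℍ) (γ : SL(2, ℤ)) (e : ℕ), 0 < e ∧ γ ∈ Γ ∧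
      IsOfFinOrder γ ∧ γ • z = z ∧ IsPrimitiveRoot ((denom (γ : GL (Fin 2) ℝ) z) ^ 2) e ∧
      jFun z = jFun z0 ∧
      (e : ℤ) * v.ord (D.j - algebraMap K F a) = e₀ ∧
      ∀ f : F, f ≠ 0 → ordAtPt (R := D.R) D.θ z f = (e : ℤ) * v.ord f := by
  obtain ⟨c, k, hkpos, hkdvd, hfix, hvx, hcf⟩ :=
    exists_coset_of_place_wPt D hsep hcard hdist a z0 g e₀ he₀ hz hg hx hdvd v hv
  set h : SL(2, ℤ) := Quotient.out c with hh
  have hc : ((h : SL(2, ℤ)) : SL(2, ℤ) ⧸ Γ) = c := by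
    rw [hh]; exact Quotient.out_eq' c
  have hzk : g ^ k • z0 = z0 := pow_smul_eq_of_smul_eq hz k
  refine ⟨h⁻¹ • z0, h⁻¹ * g ^ k * h, e₀ / k, Nat.div_pos (Nat.le_of_dvd he₀ hkdvd) hkpos,
    ?_, ?_, conj_smul_of_smul_eq hzk h, ?_, ?_, ?_, ?_⟩
  · -- membership in `Γ`
    have h1 : g ^ k • (h : SL(2, ℤ) ⧸ Γ) = (h : SL(2, ℤ) ⧸ Γ) := by rw [hc]; exact hfix
    rw [MulAction.Quotient.smul_mk, smul_eq_mul] at h1
    have h2 := QuotientGroup.eq.mp h1.symm
    rwa [← mul_assoc] at h2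
  · -- finite order
    obtain ⟨n, hn, hgn⟩ := isOfFinOrder_iff_pow_eq_one.mp hfin
    refine isOfFinOrder_iff_pow_eq_one.mpr ⟨n, hn, ?_⟩
    have : (h⁻¹ * g ^ k * h) ^ n = h⁻¹ * (g ^ k) ^ n * h := by
      have := conj_pow (a := h⁻¹) (i := n) (b := g ^ k)
      rwa [inv_inv] at this
    rw [this, ← pow_mul, mul_comm k n, pow_mul, hgn, one_pow, mul_one, inv_mul_cancel]
  · -- primitive root
    rw [denom_conj_of_smul_eq hzk h, denom_pow_of_smul_eq hz k, ← pow_mul, mul_comm k 2, pow_mul]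
    exact hprim.pow_of_dvd hkpos.ne' hkdvd
  · rw [jFun_smul]
  · rw [hvx]
    have : ((e₀ / k : ℕ) : ℤ) * (k : ℤ) = ((e₀ / k * k : ℕ) : ℤ) := by push_cast; rfl
    rw [this, Nat.div_mul_cancel hkdvd]
  · intro f hf
    rw [← hcf f hf]
    unfold wPt thetaC cosetHom
    rw [ordAtPt_conjHom]

/-! ## Every place where `j` is finite -/

/-- **(D2), points.** Every place of `F` at which `j` is finite is the place of a point `z : ℍ`,
with multiplicity the exact order `e` of the stabiliser of `z` in `Γ / ±1`. -/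
theorem exists_point_of_place [Fintype (SL(2, ℤ) ⧸ Γ)] (hsep : IsSepVar K D.j d)
    (hcard : Fintype.card (SL(2, ℤ) ⧸ Γ) = d) (hdist : Function.Injective (thetaC D))
    (v : Place K F) (hv : 0 ≤ v.ord D.j) :
    ∃ (z : ℍ) (γ : SL(2, ℤ)) (e : ℕ) (a : K), 0 < e ∧ γ ∈ Γ ∧
      IsOfFinOrder γ ∧ γ • z = z ∧ IsPrimitiveRoot ((denom (γ : GL (Fin 2) ℝ) z) ^ 2) e ∧
      ι a = jFun z ∧ 0 < v.ord (D.j - algebraMap K F a) ∧
      ∀ f : F, f ≠ 0 → ordAtPt (R := D.R) D.θ z f = (e : ℤ) * v.ord f := by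
  obtain ⟨a, ha⟩ := RR7.exists_ord_sub_pos hsep v hv
  by_cases h0 : a = 0
  · subst h0
    obtain ⟨z, γ, e, he, hγ, hfin, hγz, hprim, hj, -, hf⟩ :=
      exists_point_of_place_over D hsep hcard hdist 0 UpperHalfPlane.ρ
        (ModularGroup.S * ModularGroup.T) 3
        (by norm_num) ST_smul_ρ (modST_cube_smul_coset D.neg_mem) (wPt_j_sub_ρ D) (wPt_dvd_ρ D)
        isOfFinOrder_modST isPrimitiveRoot_denom_ST_ρ v ha
    refine ⟨z, γ, e, 0, he, hγ, hfin, hγz, hprim, ?_, ha, hf⟩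
    rw [hj, jFun_ρ, map_zero]
  by_cases h1 : a = 1728
  · subst h1
    obtain ⟨z, γ, e, he, hγ, hfin, hγz, hprim, hj, -, hf⟩ :=
      exists_point_of_place_over D hsep hcard hdist 1728 UpperHalfPlane.I ModularGroup.S 2 two_pos
        S_smul_I (modS_sq_smul_coset D.neg_mem) (wPt_j_sub_I D) (wPt_dvd_I D)
        isOfFinOrder_modS isPrimitiveRoot_denom_S_I v ha
    refine ⟨z, γ, e, 1728, he, hγ, hfin, hγz, hprim, ?_, ha, hf⟩
    rw [hj, jFun_I]
    exact map_ofNat ι 1728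
  · obtain ⟨z0, hz0⟩ := jFun_surjective (ι a)
    have hj0 : jFun z0 ≠ 0 := by rw [hz0]; exact (map_ne_zero ι).mpr h0
    have hj1 : jFun z0 ≠ 1728 := by
      rw [hz0]
      intro h
      apply h1
      apply ι.injective
      rw [h]
      exact (map_ofNat ι 1728).symm
    obtain ⟨z, γ, e, he, hγ, hfin, hγz, hprim, hj, -, hf⟩ :=
      exists_point_of_place_over D hsep hcard hdist a z0 1 1 one_pos (one_smul _ z0)
        (fun c => by rw [pow_one, one_smul])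
        (fun c => wPt_j_sub_generic D z0 c a hz0.symm hj0 hj1)
        (fun c f _ => wPt_dvd_one D z0 1 c f) IsOfFinOrder.one (isPrimitiveRoot_denom_one z0) v ha
    refine ⟨z, γ, e, a, he, hγ, hfin, hγz, hprim, ?_, ha, hf⟩
    rw [hj, hz0]

/-! ## The cusps -/

/-- **(D2), cusps.** Every pole of `j` is the place of a cusp `c⁻¹ ∞`: `wInf D c = (W / k) · ord`
with `k` the width (`T ^ k • c = c`, `k ∣ W`, `k` the pole order of `j`). -/
theorem exists_cusp_of_place [Fintype (SL(2, ℤ) ⧸ Γ)] (hsep : IsSepVar K D.j d)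
    (hcard : Fintype.card (SL(2, ℤ) ⧸ Γ) = d) (hdist : Function.Injective (thetaC D))
    (v : Place K F) (hv : v.ord D.j < 0) :
    ∃ (c : SL(2, ℤ) ⧸ Γ) (k : ℕ), 0 < k ∧ k ∣ W ∧
      ModularGroup.T ^ k • c = c ∧ v.ord D.j = -(k : ℤ) ∧
      ∀ f : F, f ≠ 0 → wInf D c f = ((W / k : ℕ) : ℤ) * v.ord f := by
  classical
  have : FiniteDimensional K⟮D.j⟯ F := hsep.finite
  have hcard' : Fintype.card (SL(2, ℤ) ⧸ Γ) = Module.finrank K⟮D.j⟯ F := by
    rw [hcard, hsep.finrank_eq]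
  have hW : 0 < W := Nat.pos_of_ne_zero (NeZero.ne W)
  set x : F := (D.j)⁻¹ with hxdef
  have hxsep : IsSepVar K x d := isSepVar_inv hsep
  have hx0 : x ≠ 0 := by
    intro h0
    exact hxsep.transcendental (h0 ▸ isAlgebraic_zero)
  have hE : K⟮D.j⟯ ≤ K⟮x⟯ := (adjoin_simple_inv D.j).ge
  have hvx : 0 < v.ord x := by
    rw [hxdef, Place.ord_inv]
    omega
  obtain ⟨c, hcx, hcf⟩ := acl_exact_complete (K := K) (F := F) hxsep
    (C := SL(2, ℤ) ⧸ Γ) hcard
    (MulAction.toPerm ModularGroup.T) W hW (toPerm_T_pow_eq_one_of_gamma_le D.gamma_le) (wInf D)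
    (wInf_mul D) (wInf_add D) (wInf_const D) (wInf_x D) (wInf_eps D)
    (fun c k hk hfix f hf => wInf_div D c k hk hfix f hf)
    (fun f hf hpos v hv => by
      let c₀ : SL(2, ℤ) ⧸ Γ := ((1 : SL(2, ℤ)) : _)
      have hWl := isValLike_wInf D c₀
      have hy : 0 < wInf D c₀ x := by
        rw [wInf_x D c₀]
        exact_mod_cast hW
      have hfint : IsIntegral K⟮D.j⟯ f := Algebra.IsIntegral.isIntegral f
      refine ord_nonneg_of_minpoly_coeff hWl hx0 hy K⟮D.j⟯ hE hfint (fun i => ?_) v hv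
      rcases coeff_minpoly_wInf_nonneg D hcard' hdist hf hpos i with h | h
      · exact Or.inl h
      · exact Or.inr (h c₀)) v hvx
  set k := minimalPeriod ((MulAction.toPerm ModularGroup.T :
    Equiv.Perm (SL(2, ℤ) ⧸ Γ)) • ·) c with hk
  have hfun : (((MulAction.toPerm ModularGroup.T : Equiv.Perm (SL(2, ℤ) ⧸ Γ)) • ·) :
      SL(2, ℤ) ⧸ Γ → SL(2, ℤ) ⧸ Γ) = ((ModularGroup.T : SL(2, ℤ)) • ·) := rfl
  have hkpos : 0 < k := by
    have : (0 : ℤ) < k := by rw [← hcx]; exact hvx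
    exact_mod_cast this
  have hTW : ∀ c : SL(2, ℤ) ⧸ Γ, ModularGroup.T ^ W • c = c := by
    intro c
    have := congrArg (fun σ : Equiv.Perm (SL(2, ℤ) ⧸ Γ) => σ c)
      (toPerm_T_pow_eq_one_of_gamma_le (W := W) D.gamma_le)
    simp only [Equiv.Perm.one_apply] at this
    rwa [toPerm_pow_apply] at this
  have hper : IsPeriodicPt ((ModularGroup.T : SL(2, ℤ)) • ·) W c := by
    unfold IsPeriodicPt IsFixedPt
    rw [smul_iterate]
    exact hTW c
  have hkdvd : k ∣ W := by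
    rw [hk, hfun]
    exact hper.minimalPeriod_dvd
  have hfix : ModularGroup.T ^ k • c = c := by
    have h := isPeriodicPt_minimalPeriod ((ModularGroup.T : SL(2, ℤ)) • ·) c
    unfold IsPeriodicPt IsFixedPt at h
    rw [smul_iterate] at h
    rw [hk, hfun]
    exact h
  refine ⟨c, k, hkpos, hkdvd, hfix, ?_, hcf⟩
  rw [hxdef, Place.ord_inv] at hcx
  omega

/-- **(D2).** Every place of `F` is a point place or a cusp place. -/
theorem place_point_or_cusp [Fintype (SL(2, ℤ) ⧸ Γ)] (hsep : IsSepVar K D.j d)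
    (hcard : Fintype.card (SL(2, ℤ) ⧸ Γ) = d) (hdist : Function.Injective (thetaC D))
    (v : Place K F) :
    (∃ (z : ℍ) (γ : SL(2, ℤ)) (e : ℕ), 0 < e ∧ γ ∈ Γ ∧
      IsOfFinOrder γ ∧ γ • z = z ∧ IsPrimitiveRoot ((denom (γ : GL (Fin 2) ℝ) z) ^ 2) e ∧
      ∀ f : F, f ≠ 0 → ordAtPt (R := D.R) D.θ z f = (e : ℤ) * v.ord f) ∨
    (∃ (c : SL(2, ℤ) ⧸ Γ) (k : ℕ), 0 < k ∧ k ∣ W ∧
      ModularGroup.T ^ k • c = c ∧
      ∀ f : F, f ≠ 0 → wInf D c f = ((W / k : ℕ) : ℤ) * v.ord f) := by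
  by_cases hv : 0 ≤ v.ord D.j
  · left
    obtain ⟨z, γ, e, a, he, hγ, hfin, hγz, hprim, -, -, hf⟩ :=
      exists_point_of_place D hsep hcard hdist v hv
    exact ⟨z, γ, e, he, hγ, hfin, hγz, hprim, hf⟩
  · right
    obtain ⟨c, k, hk, hkW, hfix, -, hf⟩ :=
      exists_cusp_of_place D hsep hcard hdist v (not_le.mp hv)
    exact ⟨c, k, hk, hkW, hfix, hf⟩

end Fermat.Agent.DS.X1.Places
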