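import Mathlib
import Fermat.Agent.DS.X1.Places.Real
import Fermat.Agent.X0.Psi

/-!
# PROGRAMME III, port leaf X1-AN-A, generic half (helper6): the realisation `PsiGen`

Generic twin of `X0/Psi.lean`.  For a field `K` with `ι : K →+* ℂ`, a subgroup `Γ ≤ SL(2,ℤ)`, a
field `L ⊂ K((q))` and a set `G ⊂ L` each of whose elements is the `q`-expansion of a holomorphic
`Γ`-invariant function meromorphic at all cusps (`IsRealOf`):

* `RGen L G = K[G] ⊂ L` and the ring homomorphism `PsiGen : RGen L G →+* (ℍ → ℂ)` with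
  `qexpL (PsiGen r) = coeffMap ι r`, injective, holomorphic, `Γ`-invariant, meromorphic at all cusps;
* `isFractionRing_RGen` from the quotient hypothesis `hfrac`;
* `modRealGen : ModReal K ι Γ W L` — the input of the places/ramification layer (`Final`, `Dict`);
* `exists_div_of_mem_laurentBaseChange` : `hfrac` for `L = laurentBaseChange K F₀`,
  `F₀ = ℚ(G₀) ⊂ ℚ((q))`, `G = coeffEmb K '' G₀`.
-/

set_option autoImplicit false
set_option linter.unusedSectionVars false

namespace Fermat.Agent.DS.X1.Places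

open Fermat.Agent.X0
open UpperHalfPlane ModularCurve HahnSeries
open scoped MatrixGroups Manifold

variable {K : Type*} [Field K]

/-! ## Realised series -/

/-- `Fn` is the analytic realisation of the formal series `x ∈ K((q))` (coefficients embedded by
`ι`): meromorphic at `i∞` with `q`-expansion `x`, `Γ`-invariant, meromorphic at all cusps. -/
structure IsRealOf (ι : K →+* ℂ) (Γ : Subgroup SL(2, ℤ)) (x : LaurentSeries K) (Fn : ℍ → ℂ) :
    Prop where
  mer : IsMerCusp Fn
  qexp : qexpL Fn = coeffMap ι x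
  inv : ∀ γ ∈ Γ, ∀ z : ℍ, Fn (γ • z) = Fn z
  cusps : IsMeroAtCusps Fn

variable {ι : K →+* ℂ} {Γ : Subgroup SL(2, ℤ)}

theorem IsRealOf.add {x y : LaurentSeries K} {Fn Gn : ℍ → ℂ} (hF : IsRealOf ι Γ x Fn)
    (hG : IsRealOf ι Γ y Gn) : IsRealOf ι Γ (x + y) (Fn + Gn) where
  mer := hF.mer.add hG.mer
  qexp := by rw [qexpL_add hF.mer hG.mer, hF.qexp, hG.qexp, map_add]
  inv γ hγ z := by simp only [Pi.add_apply, hF.inv γ hγ z, hG.inv γ hγ z]
  cusps := hF.cusps.add hG.cusps

theorem IsRealOf.mul {x y : LaurentSeries K} {Fn Gn : ℍ → ℂ} (hF : IsRealOf ι Γ x Fn)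
    (hG : IsRealOf ι Γ y Gn) : IsRealOf ι Γ (x * y) (Fn * Gn) where
  mer := hF.mer.mul hG.mer
  qexp := by rw [qexpL_mul hF.mer hG.mer, hF.qexp, hG.qexp, map_mul]
  inv γ hγ z := by simp only [Pi.mul_apply, hF.inv γ hγ z, hG.inv γ hγ z]
  cusps := hF.cusps.mul hG.cusps

theorem isRealOf_algebraMap (ι : K →+* ℂ) (Γ : Subgroup SL(2, ℤ)) (c : K) :
    IsRealOf ι Γ (algebraMap K (LaurentSeries K) c) (fun _ => ι c) where
  mer := isMerCusp_const _
  qexp := by
    rw [qexpL_const, algebraMap_laurentSeries_eq_single, coeffMap_single]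
    rfl
  inv _ _ _ := rfl
  cusps := isMeroAtCusps_const _

theorem IsRealOf.unique {x : LaurentSeries K} {Fn Gn : ℍ → ℂ} (hF : IsRealOf ι Γ x Fn)
    (hG : IsRealOf ι Γ x Gn) : Fn = Gn := by
  have h : qexpLHom ⟨Fn, hF.mer⟩ = qexpLHom ⟨Gn, hG.mer⟩ := by
    simp only [qexpLHom_apply, hF.qexp, hG.qexp]
  exact congrArg Subtype.val (qexpLHom_injective h)

/-! ## The ring `K[G]` and its realisation -/

variable (L : IntermediateField K (LaurentSeries K)) (G : Set L)

/-- `K[G]` as a subalgebra of `L`. -/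
noncomputable def RGen : Subalgebra K L := Algebra.adjoin K G

variable {L G}

theorem exists_isRealOf (hG : ∀ x ∈ G, ∃ Fn : ℍ → ℂ, IsRealOf ι Γ ((x : L) : LaurentSeries K) Fn)
    (r : L) (hr : r ∈ RGen L G) :
    ∃ Fn : ℍ → ℂ, IsRealOf ι Γ ((r : L) : LaurentSeries K) Fn := by
  unfold RGen at hr
  induction hr using Algebra.adjoin_induction with
  | mem x hx => exact hG x hx
  | algebraMap c => exact ⟨_, isRealOf_algebraMap ι Γ c⟩
  | add x y _ _ hx hy =>
    obtain ⟨Fn, hF⟩ := hx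
    obtain ⟨Gn, hGn⟩ := hy
    exact ⟨Fn + Gn, hF.add hGn⟩
  | mul x y _ _ hx hy =>
    obtain ⟨Fn, hF⟩ := hx
    obtain ⟨Gn, hGn⟩ := hy
    exact ⟨Fn * Gn, hF.mul hGn⟩

variable (hG : ∀ x ∈ G, ∃ Fn : ℍ → ℂ, IsRealOf ι Γ ((x : L) : LaurentSeries K) Fn)

/-- The underlying function of `PsiGen`. -/
noncomputable def PsiGenFun (r : RGen L G) : ℍ → ℂ := (exists_isRealOf hG r r.2).choose

theorem isRealOf_PsiGenFun (r : RGen L G) :
    IsRealOf ι Γ (((r : RGen L G) : L) : LaurentSeries K) (PsiGenFun hG r) :=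
  (exists_isRealOf hG r r.2).choose_spec

theorem PsiGenFun_eq_of_isRealOf {r : RGen L G} {Fn : ℍ → ℂ}
    (hF : IsRealOf ι Γ (((r : RGen L G) : L) : LaurentSeries K) Fn) : PsiGenFun hG r = Fn :=
  (isRealOf_PsiGenFun hG r).unique hF

/-- **the generic realisation** of `K[G]`. -/
noncomputable def PsiGen : RGen L G →+* (ℍ → ℂ) where
  toFun := PsiGenFun hG
  map_one' := PsiGenFun_eq_of_isRealOf hG (by
    have h := isRealOf_algebraMap ι Γ (1 : K)
    simp only [map_one] at h
    exact h)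
  map_mul' r s := PsiGenFun_eq_of_isRealOf hG ((isRealOf_PsiGenFun hG r).mul
    (isRealOf_PsiGenFun hG s))
  map_zero' := PsiGenFun_eq_of_isRealOf hG (by
    have h := isRealOf_algebraMap ι Γ (0 : K)
    simp only [map_zero] at h
    exact h)
  map_add' r s := PsiGenFun_eq_of_isRealOf hG ((isRealOf_PsiGenFun hG r).add
    (isRealOf_PsiGenFun hG s))

theorem isRealOf_PsiGen (r : RGen L G) :
    IsRealOf ι Γ (((r : RGen L G) : L) : LaurentSeries K) (PsiGen hG r) :=
  isRealOf_PsiGenFun hG r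

theorem PsiGen_eq_of_isRealOf {r : RGen L G} {Fn : ℍ → ℂ}
    (hF : IsRealOf ι Γ (((r : RGen L G) : L) : LaurentSeries K) Fn) : PsiGen hG r = Fn :=
  PsiGenFun_eq_of_isRealOf hG hF

/-- `PsiGen` is compatible with `q`-expansions. -/
theorem qexpL_PsiGen (r : RGen L G) :
    qexpL (PsiGen hG r) = coeffMap ι (((r : RGen L G) : L) : LaurentSeries K) :=
  (isRealOf_PsiGen hG r).qexp

theorem PsiGen_smul (r : RGen L G) (γ : SL(2, ℤ)) (hγ : γ ∈ Γ) (z : ℍ) :
    PsiGen hG r (γ • z) = PsiGen hG r z := (isRealOf_PsiGen hG r).inv γ hγ z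

theorem PsiGen_algebraMap (c : K) :
    PsiGen hG (algebraMap K (RGen L G) c) = fun _ => ι c :=
  PsiGen_eq_of_isRealOf hG (isRealOf_algebraMap ι Γ c)

theorem PsiGen_injective : Function.Injective (PsiGen hG) := by
  rw [injective_iff_map_eq_zero]
  intro r hr
  have h := qexpL_PsiGen hG r
  rw [hr, qexpL_zero] at h
  have h2 : (((r : RGen L G) : L) : LaurentSeries K) = 0 :=
    coeffMap_injective ι ι.injective (by rw [← h, map_zero])
  exact Subtype.ext (Subtype.ext h2)

theorem PsiGen_mdiff (r : RGen L G) : MDifferentiable 𝓘(ℂ) 𝓘(ℂ) (PsiGen hG r) :=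
  (isRealOf_PsiGen hG r).mer.mdiff

theorem PsiGen_mero (r : RGen L G) : IsMeroAtCusps (PsiGen hG r) :=
  (isRealOf_PsiGen hG r).cusps

/-- The value of `PsiGen` on a generator (or any element with a known realisation). -/
theorem PsiGen_of_mem {x : L} (hx : x ∈ RGen L G) {Fn : ℍ → ℂ}
    (hF : IsRealOf ι Γ ((x : L) : LaurentSeries K) Fn) : PsiGen hG ⟨x, hx⟩ = Fn :=
  PsiGen_eq_of_isRealOf hG hF

/-! ## The fraction field and the `ModReal` -/

/-- **`L` is the fraction field of `K[G]`**, given that every element is a quotient. -/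
theorem isFractionRing_RGen
    (hfrac : ∀ f : L, ∃ g h : RGen L G, f = ((g : RGen L G) : L) / ((h : RGen L G) : L)) :
    IsFractionRing (RGen L G) L :=
  IsFractionRing.of_field (RGen L G) L fun f => by
    obtain ⟨g, h, e⟩ := hfrac f
    exact ⟨g, h, e⟩

/-- **The `ModReal` attached to a realised generating set.** -/
noncomputable def modRealGen (W : ℕ)
    (hfrac : ∀ f : L, ∃ g h : RGen L G, f = ((g : RGen L G) : L) / ((h : RGen L G) : L))
    (jx : L) (hjx : jx ∈ RGen L G) (hj : IsRealOf ι Γ ((jx : L) : LaurentSeries K) jFun)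
    (hneg : (-1 : SL(2, ℤ)) ∈ Γ) (hW : CongruenceSubgroup.Gamma W ≤ Γ) :
    ModReal K ι Γ W L where
  R := RGen L G
  isFrac := isFractionRing_RGen hfrac
  θ := PsiGen hG
  θ_inj := PsiGen_injective hG
  θ_mdiff := PsiGen_mdiff hG
  θ_inv := fun γ hγ r τ => PsiGen_smul hG r γ hγ τ
  θ_const := PsiGen_algebraMap hG
  jR := ⟨jx, hjx⟩
  θ_jR := PsiGen_of_mem hG hjx hj
  θ_mero := PsiGen_mero hG
  neg_mem := hneg
  gamma_le := hW

theorem modRealGen_j (W : ℕ)
    (hfrac : ∀ f : L, ∃ g h : RGen L G, f = ((g : RGen L G) : L) / ((h : RGen L G) : L))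
    (jx : L) (hjx : jx ∈ RGen L G) (hj : IsRealOf ι Γ ((jx : L) : LaurentSeries K) jFun)
    (hneg : (-1 : SL(2, ℤ)) ∈ Γ) (hW : CongruenceSubgroup.Gamma W ≤ Γ) :
    (modRealGen hG W hfrac jx hjx hj hneg hW).j = jx := rfl


/-! ## `hfrac` for base changes of fields `ℚ(G₀) ⊂ ℚ((q))` -/

section BaseChange

variable {K : Type*} [Field K] {L : IntermediateField K (LaurentSeries K)} {G : Set L}

/-- `x` is a quotient of two elements of `K[G]`. -/
def IsGenFrac (L : IntermediateField K (LaurentSeries K)) (G : Set L) (x : LaurentSeries K) :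
    Prop :=
  ∃ g h : RGen L G, ((h : RGen L G) : L) ≠ 0 ∧
    x * (((h : RGen L G) : L) : LaurentSeries K) = (((g : RGen L G) : L) : LaurentSeries K)

theorem isGenFrac_of_mem (r : RGen L G) :
    IsGenFrac L G (((r : RGen L G) : L) : LaurentSeries K) :=
  ⟨r, 1, by simp, by simp⟩

theorem IsGenFrac.add {x y : LaurentSeries K} (hx : IsGenFrac L G x) (hy : IsGenFrac L G y) :
    IsGenFrac L G (x + y) := by
  obtain ⟨g, h, h0, e⟩ := hx
  obtain ⟨g', h', h0', e'⟩ := hy
  refine ⟨g * h' + g' * h, h * h', ?_, ?_⟩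
  · simpa using mul_ne_zero h0 h0'
  · push_cast
    rw [← e, ← e']; ring

theorem IsGenFrac.mul {x y : LaurentSeries K} (hx : IsGenFrac L G x) (hy : IsGenFrac L G y) :
    IsGenFrac L G (x * y) := by
  obtain ⟨g, h, h0, e⟩ := hx
  obtain ⟨g', h', h0', e'⟩ := hy
  refine ⟨g * g', h * h', ?_, ?_⟩
  · simpa using mul_ne_zero h0 h0'
  · push_cast
    rw [← e, ← e']; ring

theorem IsGenFrac.neg {x : LaurentSeries K} (hx : IsGenFrac L G x) : IsGenFrac L G (-x) := by
  obtain ⟨g, h, h0, e⟩ := hx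
  refine ⟨-g, h, h0, ?_⟩
  push_cast
  rw [← e]; ring

theorem IsGenFrac.inv {x : LaurentSeries K} (hx : IsGenFrac L G x) : IsGenFrac L G x⁻¹ := by
  obtain ⟨g, h, h0, e⟩ := hx
  by_cases hx0 : x = 0
  · subst hx0
    rw [inv_zero]
    exact ⟨0, 1, by simp, by simp⟩
  · have hh : (((h : RGen L G) : L) : LaurentSeries K) ≠ 0 := fun hh => h0 (Subtype.ext hh)
    have hg : ((g : RGen L G) : L) ≠ 0 := by
      intro hg
      rw [hg] at e
      exact (mul_ne_zero hx0 hh) e
    refine ⟨h, g, hg, ?_⟩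
    rw [← e]
    field_simp

theorem isGenFrac_algebraMap (c : K) :
    IsGenFrac L G (algebraMap K (LaurentSeries K) c) :=
  isGenFrac_of_mem (algebraMap K (RGen L G) c)

/-- From `IsGenFrac` to the quotient form. -/
theorem exists_div_of_isGenFrac (f : L) (hf : IsGenFrac L G ((f : L) : LaurentSeries K)) :
    ∃ g h : RGen L G, f = ((g : RGen L G) : L) / ((h : RGen L G) : L) := by
  obtain ⟨g, h, h0, e⟩ := hf
  refine ⟨g, h, ?_⟩
  rw [eq_div_iff h0]
  exact Subtype.ext e

variable [Algebra ℚ K]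

/-- the images of the elements of `ℚ(G₀)` are quotients, if the images of the generators lie in
`K[G]`. -/
theorem isGenFrac_coeffEmb (G₀ : Set (LaurentSeries ℚ))
    (hG₀ : ∀ y ∈ G₀, ∃ r : RGen L G, (((r : RGen L G) : L) : LaurentSeries K) = coeffEmb K y)
    (y : LaurentSeries ℚ) (hy : y ∈ IntermediateField.adjoin ℚ G₀) :
    IsGenFrac L G (coeffEmb K y) := by
  induction hy using IntermediateField.adjoin_induction with
  | mem x hx =>
    obtain ⟨r, hr⟩ := hG₀ x hx
    rw [← hr]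
    exact isGenFrac_of_mem r
  | algebraMap c =>
    have : coeffEmb K (algebraMap ℚ (LaurentSeries ℚ) c)
        = algebraMap K (LaurentSeries K) (algebraMap ℚ K c) := by
      rw [algebraMap_apply_eq_single, algebraMap_laurentSeries_eq_single, coeffEmb,
        coeffMap_single]
    rw [this]
    exact isGenFrac_algebraMap _
  | add x y _ _ hx hy => rw [map_add]; exact hx.add hy
  | inv x _ hx => rw [map_inv₀]; exact hx.inv
  | mul x y _ _ hx hy => rw [map_mul]; exact hx.mul hy

theorem isGenFrac_of_mem_laurentBaseChange (G₀ : Set (LaurentSeries ℚ))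
    {G : Set (laurentBaseChange K (IntermediateField.adjoin ℚ G₀))}
    (hG₀ : ∀ y ∈ G₀, ∃ r : RGen (laurentBaseChange K (IntermediateField.adjoin ℚ G₀)) G,
      (((r : RGen _ G) : laurentBaseChange K (IntermediateField.adjoin ℚ G₀)) :
        LaurentSeries K) = coeffEmb K y)
    (x : LaurentSeries K) (hx : x ∈ laurentBaseChange K (IntermediateField.adjoin ℚ G₀)) :
    IsGenFrac (laurentBaseChange K (IntermediateField.adjoin ℚ G₀)) G x := by
  rw [mem_laurentBaseChange_iff] at hx
  induction hx using Subfield.closure_induction with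
  | mem y hy =>
    rcases hy with ⟨c, rfl⟩ | ⟨z, hz, rfl⟩
    · exact isGenFrac_algebraMap c
    · exact isGenFrac_coeffEmb G₀ hG₀ z hz
  | one =>
    have := isGenFrac_algebraMap (L := laurentBaseChange K (IntermediateField.adjoin ℚ G₀))
      (G := G) (1 : K)
    rwa [map_one] at this
  | add x y _ _ hx hy => exact hx.add hy
  | neg x _ hx => exact hx.neg
  | inv x _ hx => exact hx.inv
  | mul x y _ _ hx hy => exact hx.mul hy

/-- **`hfrac` for a base change**: if `F₀ = ℚ(G₀)` and `L = laurentBaseChange K F₀`, and the images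
of the generators lie in `K[G]`, every element of `L` is a quotient of elements of `K[G]`. -/
theorem exists_div_of_mem_laurentBaseChange (G₀ : Set (LaurentSeries ℚ))
    {G : Set (laurentBaseChange K (IntermediateField.adjoin ℚ G₀))}
    (hG₀ : ∀ y ∈ G₀, ∃ r : RGen (laurentBaseChange K (IntermediateField.adjoin ℚ G₀)) G,
      (((r : RGen _ G) : laurentBaseChange K (IntermediateField.adjoin ℚ G₀)) :
        LaurentSeries K) = coeffEmb K y)
    (f : laurentBaseChange K (IntermediateField.adjoin ℚ G₀)) :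
    ∃ g h : RGen (laurentBaseChange K (IntermediateField.adjoin ℚ G₀)) G,
      f = ((g : RGen _ G) : laurentBaseChange K (IntermediateField.adjoin ℚ G₀)) /
        ((h : RGen _ G) : laurentBaseChange K (IntermediateField.adjoin ℚ G₀)) :=
  exists_div_of_isGenFrac f (isGenFrac_of_mem_laurentBaseChange G₀ hG₀ _ f.2)

end BaseChange

end Fermat.Agent.DS.X1.Places
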